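import Mathlib
import Fermat.Agent.S48.A.Neb.Main

/-!
# S48, part B, brick B7b (i): the `N`-depletion of a form with nebentypus

For a function `F` on the upper half plane with `F ∣[k] γ = e(d_γ) • F` for `γ ∈ Γ₀(N)` we put
`depl N k F = ∑_{m mod N} cf m • F ∣[k] (1 m/N; 0 1)`, where `cf` is the finite Fourier transform of
the indicator function of the units modulo `N`.  Then

* `depl N k F ∣[k] γ = e(d_γ) • depl N k F` for every `γ ∈ Γ₀(N²)` (`depl_slash`);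
* the `q`-expansion of `depl N k F` is the one of `F` with all coefficients of index not prime to
  `N` removed (`qCoeff_depl`).
-/

set_option autoImplicit false

noncomputable section

namespace Fermat.Agent.S48.B7.Deplete

open Matrix.SpecialLinearGroup UpperHalfPlane CongruenceSubgroup ModularForm
open Fermat.Agent.S48.A.Neb
open scoped MatrixGroups ModularForm Manifold

/-! ### translation matrices -/

/-- the translation matrix `(1 x; 0 1)` -/
def trMat (x : ℚ) : GL (Fin 2) ℝ :=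
  Matrix.GeneralLinearGroup.mkOfDetNeZero !![1, (x : ℝ); 0, 1] (by simp)

@[simp] theorem val_trMat (x : ℚ) :
    ((trMat x : GL (Fin 2) ℝ) : Matrix (Fin 2) (Fin 2) ℝ) = !![(1 : ℝ), (x : ℝ); 0, 1] := rfl

theorem trMat_mem_ratGL (x : ℚ) : trMat x ∈ ratGL := by
  refine ⟨Matrix.GeneralLinearGroup.mkOfDetNeZero !![1, x; 0, 1] (by simp), ?_⟩
  ext i j
  fin_cases i <;> fin_cases j <;> simp [trMat]

theorem trMat_add (x y : ℚ) : trMat (x + y) = trMat x * trMat y := by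
  ext i j
  fin_cases i <;> fin_cases j <;> simp [trMat, Matrix.mul_apply, Fin.sum_univ_two, add_comm]

theorem det_trMat (x : ℚ) : ((trMat x).det : ℝ) = 1 := by
  rw [Matrix.GeneralLinearGroup.val_det_apply, val_trMat, Matrix.det_fin_two_of]
  ring

theorem σ_trMat (x : ℚ) : UpperHalfPlane.σ (trMat x) = .refl ℝ ℂ := by
  rw [UpperHalfPlane.σ, if_pos (by rw [det_trMat]; exact one_pos)]

theorem denom_trMat (x : ℚ) (τ : ℍ) : denom (trMat x) τ = 1 := by
  simp [denom]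

theorem trMat_smul (x : ℚ) (τ : ℍ) : trMat x • τ = (x : ℝ) +ᵥ τ := by
  apply UpperHalfPlane.ext
  rw [UpperHalfPlane.coe_smul_of_det_pos (by rw [det_trMat]; exact one_pos)]
  simp [num, denom, add_comm]

theorem slash_trMat_apply (k : ℤ) (F : ℍ → ℂ) (x : ℚ) (τ : ℍ) :
    (F ∣[k] trMat x) τ = F ((x : ℝ) +ᵥ τ) := by
  rw [ModularForm.slash_apply, σ_trMat, det_trMat, denom_trMat, trMat_smul]
  simp

theorem smul_slash_trMat (k : ℤ) (F : ℍ → ℂ) (c : ℂ) (x : ℚ) :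
    (c • F) ∣[k] trMat x = c • (F ∣[k] trMat x) := by
  rw [ModularForm.smul_slash, σ_trMat]
  rfl

theorem trMat_intCast (q : ℤ) : trMat (q : ℚ) = mapGL ℝ (ModularGroup.T ^ q) := by
  ext i j
  rw [mapGL_apply, ModularGroup.coe_T_zpow]
  fin_cases i <;> fin_cases j <;> simp [trMat]

theorem T_zpow_mem_Gamma1 (N : ℕ) (q : ℤ) : ModularGroup.T ^ q ∈ Gamma1 N := by
  have hT : ModularGroup.T ∈ Gamma1 N := by
    rw [Gamma1_mem]
    simp [ModularGroup.T]
  exact Subgroup.zpow_mem _ hT q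

theorem slash_trMat_intCast {N : ℕ} {k : ℤ} {F : ℍ → ℂ} (hF : Inv1 N k F) (q : ℤ) :
    F ∣[k] trMat (q : ℚ) = F := by
  rw [trMat_intCast]
  exact hF _ (T_zpow_mem_Gamma1 N q)

/-! ### the conjugation identity -/

/-- the conjugate `trMat (j/N) * γ * (trMat (j d² / N))⁻¹` of `γ ∈ Γ₀(N²)` -/
def conjSL (N : ℕ) (γ : SL(2, ℤ)) (c0 j : ℤ) (hc : γ 1 0 = (N : ℤ) ^ 2 * c0) : SL(2, ℤ) :=
  mkSL (γ 0 0 + j * N * c0)
    (γ 0 1 - j * γ 1 1 * γ 0 1 * N * c0 - j * (j * γ 1 1 * γ 1 1) * c0)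
    ((N : ℤ) ^ 2 * c0) (γ 1 1 - N * c0 * (j * γ 1 1 * γ 1 1)) (by
      have h := det_eq γ
      rw [hc] at h
      linear_combination (1 - j * N * c0 * γ 1 1) * h)

theorem trMat_mul_mapGL (N : ℕ) [NeZero N] (γ : SL(2, ℤ)) (c0 j : ℤ)
    (hc : γ 1 0 = (N : ℤ) ^ 2 * c0) :
    trMat ((j : ℚ) / N) * mapGL ℝ γ =
      mapGL ℝ (conjSL N γ c0 j hc) * trMat (((j * γ 1 1 * γ 1 1 : ℤ) : ℚ) / N) := by
  have hN : (N : ℝ) ≠ 0 := by exact_mod_cast NeZero.ne N
  have h := det_eq γ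
  rw [hc] at h
  have hR : ((γ 0 0 : ℤ) : ℝ) * (γ 1 1 : ℤ) - (γ 0 1 : ℤ) * ((N : ℝ) ^ 2 * c0) = 1 := by
    exact_mod_cast h
  ext i k
  fin_cases i <;> fin_cases k
  · simp [Matrix.mul_apply, Fin.sum_univ_two, conjSL, hc]
    field_simp
  · simp [Matrix.mul_apply, Fin.sum_univ_two, conjSL]
    field_simp
    linear_combination (-(j : ℝ) * (γ 1 1 : ℤ)) * hR
  · simp [Matrix.mul_apply, Fin.sum_univ_two, conjSL, hc]
  · simp [Matrix.mul_apply, Fin.sum_univ_two, conjSL]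
    field_simp
    ring

theorem conjSL_G0 (N : ℕ) (γ : SL(2, ℤ)) (c0 j : ℤ) (hc : γ 1 0 = (N : ℤ) ^ 2 * c0) :
    G0 N (conjSL N γ c0 j hc) ((γ 1 1 : ℤ) : ZMod N) := by
  constructor
  · simp [conjSL, pow_two, mul_assoc]
  · simp [conjSL, mul_assoc]

/-! ### the translates of a `Γ₁(N)`-invariant function -/

section translates

variable (N : ℕ) [NeZero N]

/-- translation by `m / N`, for a class `m` modulo `N` -/
def tr (m : ZMod N) : GL (Fin 2) ℝ := trMat ((m.val : ℚ) / N)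

variable {N}

theorem slash_trMat_eq_tr {k : ℤ} {F : ℍ → ℂ} (hF : Inv1 N k F) (j : ℤ) :
    F ∣[k] trMat ((j : ℚ) / N) = F ∣[k] tr N (j : ZMod N) := by
  have hN : (N : ℚ) ≠ 0 := by exact_mod_cast NeZero.ne N
  have hval : (((j : ZMod N).val : ℕ) : ℤ) = j % N := ZMod.val_intCast j
  have hj : (j : ℚ) / N = ((j / (N : ℤ) : ℤ) : ℚ) + (((j : ZMod N).val : ℕ) : ℚ) / N := by
    have h1 : (j : ℚ) = (((j % N + N * (j / N) : ℤ)) : ℚ) := by
      rw [Int.emod_add_mul_ediv]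
    rw [← hval] at h1
    rw [h1]
    push_cast
    field_simp
    ring
  rw [hj, trMat_add, SlashAction.slash_mul, slash_trMat_intCast hF]
  rfl

end translates

/-! ### the Fourier coefficients of the indicator function of the units -/

section fourier

variable (N : ℕ) [NeZero N]

/-- the finite Fourier transform of the indicator function of the units modulo `N` -/
def cf (m : ZMod N) : ℂ :=
  (N : ℂ)⁻¹ * ∑ x : (ZMod N)ˣ, ZMod.stdAddChar (-((x : ZMod N) * m))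

variable {N}

theorem cf_mul_unit (v : (ZMod N)ˣ) (m : ZMod N) : cf N (m * v) = cf N m := by
  unfold cf
  congr 1
  refine Fintype.sum_equiv (Equiv.mulRight v) _ _ fun x => ?_
  simp only [Equiv.coe_mulRight, Units.val_mul]
  congr 2
  ring

theorem sum_cf_mul (t : ZMod N) :
    ∑ m : ZMod N, cf N m * ZMod.stdAddChar (t * m) = if IsUnit t then 1 else 0 := by
  classical
  have hN : (N : ℂ) ≠ 0 := by exact_mod_cast NeZero.ne N
  have hprim := ZMod.isPrimitive_stdAddChar N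
  have h1 : ∀ m : ZMod N, cf N m * ZMod.stdAddChar (t * m) =
      (N : ℂ)⁻¹ * ∑ x : (ZMod N)ˣ, ZMod.stdAddChar (m * (t - (x : ZMod N))) := by
    intro m
    unfold cf
    rw [mul_assoc, Finset.sum_mul]
    congr 1
    refine Finset.sum_congr rfl fun x _ => ?_
    rw [← AddChar.map_add_eq_mul]
    congr 1
    ring
  rw [Finset.sum_congr rfl fun m _ => h1 m, ← Finset.mul_sum, Finset.sum_comm]
  have h2 : ∀ x : (ZMod N)ˣ, ∑ m : ZMod N, ZMod.stdAddChar (m * (t - (x : ZMod N))) =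
      if (x : ZMod N) = t then (N : ℂ) else 0 := by
    intro x
    rw [AddChar.sum_mulShift (t - (x : ZMod N)) hprim, ZMod.card]
    simp only [sub_eq_zero, eq_comm]
    split_ifs <;> simp
  rw [Finset.sum_congr rfl fun x _ => h2 x]
  by_cases ht : IsUnit t
  · obtain ⟨u, rfl⟩ := ht
    rw [if_pos u.isUnit]
    simp only [Units.val_inj]
    rw [Finset.sum_ite_eq' Finset.univ u]
    simp [hN]
  · rw [if_neg ht]
    have : ∀ x : (ZMod N)ˣ, ¬ ((x : ZMod N) = t) := fun x hx => ht (hx ▸ x.isUnit)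
    simp [this]

end fourier

/-! ### the depletion and its transformation law -/

section depletion

variable (N : ℕ) [NeZero N]

/-- the `N`-depletion of `F` -/
def depl (k : ℤ) (F : ℍ → ℂ) : ℍ → ℂ := ∑ m : ZMod N, cf N m • (F ∣[k] tr N m)

variable {N}

omit [NeZero N] in
theorem exists_eq_sq_mul_of_mem_Gamma0 {γ : SL(2, ℤ)} (hγ : γ ∈ Gamma0 (N ^ 2)) :
    ∃ c0 : ℤ, γ 1 0 = (N : ℤ) ^ 2 * c0 := by
  have h := Gamma0_mem.mp hγ
  rw [ZMod.intCast_zmod_eq_zero_iff_dvd] at h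
  obtain ⟨c0, hc0⟩ := h
  exact ⟨c0, by rw [hc0]; push_cast; ring⟩

theorem slash_tr_slash {k : ℤ} {F : ℍ → ℂ} (hF : Inv1 N k F) (e : ZMod N → ℂ)
    (he : ∀ γ : SL(2, ℤ), γ ∈ Gamma0 N → F ∣[k] mapGL ℝ γ = e ((γ 1 1 : ℤ) : ZMod N) • F)
    (γ : SL(2, ℤ)) (hγ : γ ∈ Gamma0 (N ^ 2)) (m : ZMod N) :
    (F ∣[k] tr N m) ∣[k] mapGL ℝ γ =
      e ((γ 1 1 : ℤ) : ZMod N) •
        (F ∣[k] tr N (m * ((γ 1 1 : ℤ) : ZMod N) * ((γ 1 1 : ℤ) : ZMod N))) := by
  obtain ⟨c0, hc⟩ := exists_eq_sq_mul_of_mem_Gamma0 hγ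
  have hG := conjSL_G0 N γ c0 (m.val : ℤ) hc
  have h1 : tr N m = trMat ((((m.val : ℕ) : ℤ) : ℚ) / N) := by
    unfold tr
    push_cast
    rfl
  rw [h1, ← SlashAction.slash_mul, trMat_mul_mapGL N γ c0 (m.val : ℤ) hc, SlashAction.slash_mul,
    he _ hG.mem_Gamma0, hG.2, smul_slash_trMat, slash_trMat_eq_tr hF]
  congr 3
  push_cast
  rw [ZMod.natCast_zmod_val]

theorem depl_slash {k : ℤ} {F : ℍ → ℂ} (hF : Inv1 N k F) (e : ZMod N → ℂ)
    (he : ∀ γ : SL(2, ℤ), γ ∈ Gamma0 N → F ∣[k] mapGL ℝ γ = e ((γ 1 1 : ℤ) : ZMod N) • F)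
    (γ : SL(2, ℤ)) (hγ : γ ∈ Gamma0 (N ^ 2)) :
    (depl N k F) ∣[k] mapGL ℝ γ = e ((γ 1 1 : ℤ) : ZMod N) • depl N k F := by
  -- the lower right entry is a unit modulo `N`
  obtain ⟨c0, hc⟩ := exists_eq_sq_mul_of_mem_Gamma0 hγ
  have hunit : IsUnit (((γ 1 1 : ℤ) : ZMod N)) := by
    have hdet := congrArg (Int.cast : ℤ → ZMod N) (det_eq γ)
    rw [hc] at hdet
    push_cast at hdet
    have h0 : ((N : ℕ) : ZMod N) = 0 := ZMod.natCast_self N
    rw [h0] at hdet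
    have h1 : ((γ 0 0 : ℤ) : ZMod N) * ((γ 1 1 : ℤ) : ZMod N) = 1 := by
      rw [← hdet]; ring
    exact IsUnit.of_mul_eq_one _ (by rw [mul_comm]; exact h1)
  obtain ⟨u, hu⟩ := hunit
  unfold depl
  rw [SlashAction.sum_slash, Finset.smul_sum]
  have h1 : ∀ m : ZMod N, (cf N m • (F ∣[k] tr N m)) ∣[k] mapGL ℝ γ =
      e ((γ 1 1 : ℤ) : ZMod N) • (cf N (m * ((u * u : (ZMod N)ˣ) : ZMod N)) •
        (F ∣[k] tr N (m * ((u * u : (ZMod N)ˣ) : ZMod N)))) := by
    intro m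
    have h2 : (cf N m • (F ∣[k] tr N m)) ∣[k] mapGL ℝ γ =
        cf N m • ((F ∣[k] tr N m) ∣[k] mapGL ℝ γ) :=
      ModularForm.SL_smul_slash k γ _ _
    rw [h2, slash_tr_slash hF e he γ hγ m, cf_mul_unit, smul_comm, ← hu, Units.val_mul, mul_assoc]
  rw [Finset.sum_congr rfl fun m _ => h1 m]
  exact Fintype.sum_equiv (Units.mulRight (u * u)) _ _ fun m => rfl

end depletion

/-! ### `q`-expansions -/

section qexp

open ModularFormClass

theorem nice_slash_trMat {F : ℍ → ℂ} (hF : Nice F) (k : ℤ) (x : ℚ) : Nice (F ∣[k] trMat x) where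
  per := by
    intro z
    simp only [Function.comp_apply]
    by_cases hz : 0 < z.im
    · have hz1 : 0 < (z + 1).im := by simpa using hz
      rw [ofComplex_apply_of_im_pos hz, ofComplex_apply_of_im_pos hz1, slash_trMat_apply,
        slash_trMat_apply]
      have h := hF.per (((x : ℝ) : ℂ) + z)
      simp only [Function.comp_apply] at h
      have h1 : 0 < (((x : ℝ) : ℂ) + z).im := by simpa using hz
      have h2 : 0 < (((x : ℝ) : ℂ) + z + 1).im := by simpa using hz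
      rw [ofComplex_apply_of_im_pos h1, ofComplex_apply_of_im_pos h2] at h
      convert h using 2 <;> (apply UpperHalfPlane.ext; simp [add_assoc])
    · have hz1 : ¬ 0 < (z + 1).im := by simpa using hz
      rw [ofComplex_apply_of_im_nonpos (not_lt.mp hz), ofComplex_apply_of_im_nonpos (not_lt.mp hz1)]
  hol := hF.hol.slash k _
  bdd := by
    have h := hF.bdd
    rw [UpperHalfPlane.isBoundedAtImInfty_iff] at h ⊢
    obtain ⟨M, A, hMA⟩ := h
    refine ⟨M, A, fun z hz => ?_⟩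
    rw [slash_trMat_apply]
    exact hMA _ (by rw [UpperHalfPlane.vadd_im]; exact hz)

/-- uniqueness of `q`-expansion coefficients, for bare functions -/
theorem qExpansion_coeff_unique_fun {f : ℍ → ℂ} {c : ℕ → ℂ} {h : ℝ} (hh : 0 < h)
    (hfanalytic : AnalyticAt ℂ (cuspFunction h f) 0)
    (hf : ∀ τ : ℍ, HasSum (fun m ↦ c m • Function.Periodic.qParam h (τ : ℂ) ^ m) (f τ)) (m : ℕ) :
    c m = (qExpansion h f).coeff m := by
  have h1 := (hasFPowerSeriesOnBall_cuspFunction hh hfanalytic hf).hasFPowerSeriesAt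
  have h2 := hfanalytic.hasFPowerSeriesAt
  have h3 := congr_arg (FormalMultilinearSeries.coeff · m) (h1.eq_formalMultilinearSeries h2)
  simp only [FormalMultilinearSeries.coeff_ofScalars] at h3
  rw [h3, qExpansion_coeff, div_eq_mul_inv, mul_comm]

theorem qParam_vadd (x : ℝ) (τ : ℍ) :
    Function.Periodic.qParam 1 (((x +ᵥ τ : ℍ)) : ℂ) =
      Complex.exp (2 * Real.pi * Complex.I * x) * Function.Periodic.qParam 1 (τ : ℂ) := by
  unfold Function.Periodic.qParam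
  rw [← Complex.exp_add]
  congr 1
  rw [UpperHalfPlane.coe_vadd]
  push_cast
  ring

theorem qCoeff_slash_trMat {F : ℍ → ℂ} (hF : Nice F) (k : ℤ) (x : ℚ) (n : ℕ) :
    qCoeff (F ∣[k] trMat x) n =
      Complex.exp (2 * Real.pi * Complex.I * ((x : ℝ) : ℂ)) ^ n * qCoeff F n := by
  have hs : ∀ τ : ℍ, HasSum (fun m : ℕ =>
      (Complex.exp (2 * Real.pi * Complex.I * ((x : ℝ) : ℂ)) ^ m * (qExpansion 1 F).coeff m) •
        Function.Periodic.qParam 1 (τ : ℂ) ^ m) ((F ∣[k] trMat x) τ) := by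
    intro τ
    rw [slash_trMat_apply]
    have h := hasSum_qExpansion one_pos hF.per hF.hol hF.bdd ((x : ℝ) +ᵥ τ)
    have hfun : (fun m : ℕ =>
        (Complex.exp (2 * Real.pi * Complex.I * ((x : ℝ) : ℂ)) ^ m * (qExpansion 1 F).coeff m) •
          Function.Periodic.qParam 1 (τ : ℂ) ^ m) = fun m : ℕ => (qExpansion 1 F).coeff m •
          Function.Periodic.qParam 1 ((((x : ℝ) +ᵥ τ : ℍ)) : ℂ) ^ m := by
      funext m
      rw [qParam_vadd, mul_pow, smul_eq_mul, smul_eq_mul]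
      ring
    rw [hfun]
    exact h
  exact (qExpansion_coeff_unique_fun one_pos (nice_slash_trMat hF k x).analyticAt hs n).symm

variable {N : ℕ} [NeZero N]

theorem qCoeff_slash_tr {F : ℍ → ℂ} (hF : Nice F) (k : ℤ) (m : ZMod N) (n : ℕ) :
    qCoeff (F ∣[k] tr N m) n = ZMod.stdAddChar ((n : ZMod N) * m) * qCoeff F n := by
  unfold tr
  rw [qCoeff_slash_trMat hF]
  congr 1
  rw [← nsmul_eq_mul, AddChar.map_nsmul_eq_pow, ZMod.stdAddChar_apply, ZMod.toCircle_apply]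
  congr 2
  push_cast
  ring

theorem nice_zero : Nice (0 : ℍ → ℂ) where
  per := fun z => by simp
  hol := mdifferentiable_const
  bdd := Filter.const_boundedAtFilter _ (0 : ℂ)

theorem qCoeff_zero (n : ℕ) : qCoeff (0 : ℍ → ℂ) n = 0 := by
  have h := Nice.qCoeff_smul (0 : ℂ) nice_zero n
  rw [zero_smul, zero_mul] at h
  exact h

theorem nice_sum {ι : Type*} (s : Finset ι) {F : ι → ℍ → ℂ} (hF : ∀ i ∈ s, Nice (F i)) :
    Nice (∑ i ∈ s, F i) := by
  classical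
  induction s using Finset.induction_on with
  | empty => simpa using nice_zero
  | insert a s ha ih =>
    rw [Finset.sum_insert ha]
    exact (hF a (Finset.mem_insert_self a s)).add
      (ih fun i hi ↦ hF i (Finset.mem_insert_of_mem hi))

theorem qCoeff_sum {ι : Type*} (s : Finset ι) {F : ι → ℍ → ℂ} (hF : ∀ i ∈ s, Nice (F i))
    (n : ℕ) : qCoeff (∑ i ∈ s, F i) n = ∑ i ∈ s, qCoeff (F i) n := by
  classical
  induction s using Finset.induction_on with
  | empty => simpa using qCoeff_zero n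
  | insert a s ha ih =>
    rw [Finset.sum_insert ha, Finset.sum_insert ha,
      Nice.qCoeff_add (hF a (Finset.mem_insert_self a s))
        (nice_sum s fun i hi ↦ hF i (Finset.mem_insert_of_mem hi)),
      ih fun i hi ↦ hF i (Finset.mem_insert_of_mem hi)]

theorem nice_depl {F : ℍ → ℂ} (hF : Nice F) (k : ℤ) : Nice (depl N k F) :=
  nice_sum _ fun m _ => (nice_slash_trMat hF k ((m.val : ℚ) / N)).smul _

/-- **the `q`-expansion of the depletion** -/
theorem qCoeff_depl {F : ℍ → ℂ} (hF : Nice F) (k : ℤ) (n : ℕ) :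
    qCoeff (depl N k F) n = if n.Coprime N then qCoeff F n else 0 := by
  unfold depl
  have h0 : ∀ m : ZMod N, Nice (F ∣[k] tr N m) := fun m => nice_slash_trMat hF k _
  rw [qCoeff_sum _ fun m _ => (h0 m).smul _]
  have h1 : ∀ m : ZMod N, qCoeff (cf N m • (F ∣[k] tr N m)) n =
      (cf N m * ZMod.stdAddChar ((n : ZMod N) * m)) * qCoeff F n := by
    intro m
    rw [Nice.qCoeff_smul _ (h0 m), qCoeff_slash_tr hF, mul_assoc]
  rw [Finset.sum_congr rfl fun m _ => h1 m, ← Finset.sum_mul, sum_cf_mul]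
  by_cases hn : n.Coprime N
  · rw [if_pos hn, if_pos ((ZMod.isUnit_iff_coprime n N).mpr hn), one_mul]
  · rw [if_neg hn, if_neg (fun h => hn ((ZMod.isUnit_iff_coprime n N).mp h)), zero_mul]

end qexp

/-! ### the depleted cusp form -/

section package

variable {N : ℕ} [NeZero N] {k : ℤ}

theorem cuspQ_depl {F : ℍ → ℂ} (hF : CuspQ k F) : CuspQ k (depl N k F) :=
  CuspQ.sum _ fun _ _ => (hF.slash (trMat_mem_ratGL _)).smul _

omit [NeZero N] in
theorem intCast_zmod_of_sq {a : ℤ} {u : ℤ} (h : ((a : ℤ) : ZMod (N ^ 2)) = (u : ZMod (N ^ 2))) :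
    ((a : ℤ) : ZMod N) = (u : ZMod N) := by
  have h1 := congrArg (ZMod.castHom (dvd_pow_self N two_ne_zero) (ZMod N)) h
  simpa using h1

theorem inv1_depl {F : ℍ → ℂ} (hF : Inv1 N k F) (e : ZMod N → ℂ) (he1 : e 1 = 1)
    (he : ∀ γ : SL(2, ℤ), γ ∈ Gamma0 N → F ∣[k] mapGL ℝ γ = e ((γ 1 1 : ℤ) : ZMod N) • F) :
    Inv1 (N ^ 2) k (depl N k F) := by
  intro g hg
  have hg0 : g ∈ Gamma0 (N ^ 2) := Gamma1_in_Gamma0 _ hg
  rw [depl_slash hF e he g hg0]
  have h1 : ((g 1 1 : ℤ) : ZMod N) = 1 := by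
    have h2 := ((mem_Gamma1_iff g).mp hg).2
    have h3 : ((g 1 1 : ℤ) : ZMod (N ^ 2)) = ((1 : ℤ) : ZMod (N ^ 2)) := by
      rw [h2, Int.cast_one]
    have h4 := intCast_zmod_of_sq h3
    rwa [Int.cast_one] at h4
  rw [h1, he1, one_smul]

/-- the `N`-depletion of a cusp form on `Γ₁(N)` with nebentypus `e`, as a cusp form on
`Γ₁(N²)` -/
def depleted (f : CuspForm (Gamma1 N) k) (e : ZMod N → ℂ) (he1 : e 1 = 1)
    (he : ∀ γ : SL(2, ℤ), γ ∈ Gamma0 N → ⇑f ∣[k] mapGL ℝ γ = e ((γ 1 1 : ℤ) : ZMod N) • ⇑f) :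
    CuspForm (Gamma1 (N ^ 2)) k :=
  (cuspQ_depl (cuspQ_cuspForm f)).toCuspForm (inv1_depl (inv1_cuspForm f) e he1 he)

theorem coe_depleted (f : CuspForm (Gamma1 N) k) (e : ZMod N → ℂ) (he1 : e 1 = 1)
    (he : ∀ γ : SL(2, ℤ), γ ∈ Gamma0 N → ⇑f ∣[k] mapGL ℝ γ = e ((γ 1 1 : ℤ) : ZMod N) • ⇑f) :
    ⇑(depleted f e he1 he) = depl N k ⇑f := rfl

theorem qCoeff_depleted (f : CuspForm (Gamma1 N) k) (e : ZMod N → ℂ) (he1 : e 1 = 1)
    (he : ∀ γ : SL(2, ℤ), γ ∈ Gamma0 N → ⇑f ∣[k] mapGL ℝ γ = e ((γ 1 1 : ℤ) : ZMod N) • ⇑f)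
    (n : ℕ) :
    ModularFormClass.qCoeff (depleted f e he1 he) n =
      if n.Coprime N then ModularFormClass.qCoeff f n else 0 := by
  rw [coe_depleted]
  exact qCoeff_depl (nice_cuspForm f) k n

theorem depleted_slash (f : CuspForm (Gamma1 N) k) (e : ZMod N → ℂ) (he1 : e 1 = 1)
    (he : ∀ γ : SL(2, ℤ), γ ∈ Gamma0 N → ⇑f ∣[k] mapGL ℝ γ = e ((γ 1 1 : ℤ) : ZMod N) • ⇑f)
    (γ : SL(2, ℤ)) (hγ : γ ∈ Gamma0 (N ^ 2)) :
    ⇑(depleted f e he1 he) ∣[k] mapGL ℝ γ =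
      e ((γ 1 1 : ℤ) : ZMod N) • ⇑(depleted f e he1 he) := by
  rw [coe_depleted]
  exact depl_slash (inv1_cuspForm f) e he γ hγ

end package

end Fermat.Agent.S48.B7.Deplete
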