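import Mathlib
import Fermat.Agent.S48.A.Neb.Main

/-!
# S48, part B, brick B7b (ii): products of a cuspidal function and a modular form on `Γ₁(M)`

* `ModQ k G`: holomorphic and bounded at `i∞` after every rational slash (modular forms on `Γ₁(M)`
  have this property: `modQ_modularForm`);
* `CuspQ.mul_modQ`: cuspidal × bounded is cuspidal;
* `Inv1.mul`, `Inv1.mono`: invariance of products, and under passage to a higher level;
* `mulForm`: the product as a `CuspForm (Gamma1 M) k`;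
* `qCoeff_mul`: the `q`-expansion of a product is the Cauchy product.
-/

set_option autoImplicit false

noncomputable section

namespace Fermat.Agent.S48.B7.Product

open Matrix.SpecialLinearGroup UpperHalfPlane CongruenceSubgroup ModularForm
open Fermat.Agent.S48.A.Neb
open scoped MatrixGroups ModularForm Manifold OnePoint

/-- holomorphic, and bounded at `i∞` after every rational slash -/
def ModQ (k : ℤ) (G : ℍ → ℂ) : Prop :=
  MDiff G ∧ ∀ A ∈ ratGL, IsBoundedAtImInfty (G ∣[k] A)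

theorem modQ_modularForm {M : ℕ} [NeZero M] {k : ℤ} (G : ModularForm (Gamma1 M) k) :
    ModQ k ⇑G := by
  refine ⟨ModularFormClass.holo G, fun A hA ↦ ?_⟩
  have hc : IsCusp (A • (∞ : OnePoint ℝ)) (Subgroup.map (mapGL ℝ) (Gamma1 M)) :=
    (Subgroup.IsArithmetic.isCusp_iff_isCusp_SL2Z _).mpr (isCusp_smul_infty_of_mem_ratGL hA)
  exact ModularFormClass.bdd_at_cusps G hc A rfl

theorem cuspQ_mul_modQ {k1 k2 : ℤ} {F G : ℍ → ℂ} (hF : CuspQ k1 F) (hG : ModQ k2 G) :
    CuspQ (k1 + k2) (F * G) := by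
  refine ⟨hF.1.mul hG.1, fun A hA ↦ ?_⟩
  rw [ModularForm.mul_slash]
  exact ((hF.2 A hA).mul_boundedAtFilter (hG.2 A hA)).smul _

theorem inv1_mul {N : ℕ} {k1 k2 : ℤ} {F G : ℍ → ℂ} (hF : Inv1 N k1 F) (hG : Inv1 N k2 G) :
    Inv1 N (k1 + k2) (F * G) := fun g hg ↦ by
  have h := ModularForm.mul_slash_SL2 k1 k2 g F G
  have h1 : F ∣[k1] g = F := hF g hg
  have h2 : G ∣[k2] g = G := hG g hg
  rw [h1, h2] at h
  exact h

theorem Gamma1_le_of_dvd {N M : ℕ} (h : N ∣ M) : Gamma1 M ≤ Gamma1 N := by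
  intro g hg
  rw [mem_Gamma1_iff] at hg ⊢
  constructor
  · have h1 := congrArg (ZMod.castHom h (ZMod N)) hg.1
    simpa using h1
  · have h1 := congrArg (ZMod.castHom h (ZMod N)) hg.2
    rw [map_intCast, map_one] at h1
    exact h1

theorem Gamma0_le_of_dvd {N M : ℕ} (h : N ∣ M) : Gamma0 M ≤ Gamma0 N := by
  intro g hg
  rw [Gamma0_mem] at hg ⊢
  have h1 := congrArg (ZMod.castHom h (ZMod N)) hg
  simpa using h1

theorem inv1_mono {N M : ℕ} {k : ℤ} {F : ℍ → ℂ} (h : N ∣ M) (hF : Inv1 N k F) : Inv1 M k F :=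
  fun g hg ↦ hF g (Gamma1_le_of_dvd h hg)

section forms

variable {M : ℕ} [NeZero M]

theorem nice_modularForm {k : ℤ} (G : ModularForm (Gamma1 M) k) : Nice ⇑G where
  per := SlashInvariantFormClass.periodic_comp_ofComplex G (one_mem_strictPeriods_Gamma1 M)
  hol := ModularFormClass.holo G
  bdd := ModularFormClass.bdd_at_infty G

omit [NeZero M] in
theorem inv1_modularForm {k : ℤ} (G : ModularForm (Gamma1 M) k) : Inv1 M k ⇑G := fun _ hg ↦
  SlashInvariantFormClass.slash_action_eq G _ (Subgroup.mem_map_of_mem _ hg)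

/-- the product of a cuspidal function and a bounded function, both `Γ₁(M)`-invariant, as a cusp
form on `Γ₁(M)` -/
def mulForm {k1 k2 k : ℤ} (hk : k1 + k2 = k) {F G : ℍ → ℂ} (hF : CuspQ k1 F)
    (hFi : Inv1 M k1 F) (hG : ModQ k2 G) (hGi : Inv1 M k2 G) : CuspForm (Gamma1 M) k :=
  (hk ▸ cuspQ_mul_modQ hF hG : CuspQ k (F * G)).toCuspForm (hk ▸ inv1_mul hFi hGi)

@[simp] theorem coe_mulForm {k1 k2 k : ℤ} (hk : k1 + k2 = k) {F G : ℍ → ℂ} (hF : CuspQ k1 F)
    (hFi : Inv1 M k1 F) (hG : ModQ k2 G) (hGi : Inv1 M k2 G) :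
    ⇑(mulForm hk hF hFi hG hGi) = F * G := rfl

end forms

theorem nice_mul {F G : ℍ → ℂ} (hF : Nice F) (hG : Nice G) : Nice (F * G) where
  per := fun z ↦ by
    have h1 := hF.per z; have h2 := hG.per z
    simp only [Function.comp_apply, Pi.mul_apply] at h1 h2 ⊢
    rw [h1, h2]
  hol := hF.hol.mul hG.hol
  bdd := hF.bdd.mul hG.bdd

/-- the `q`-expansion of a product is the Cauchy product -/
theorem qCoeff_mul {F G : ℍ → ℂ} (hF : Nice F) (hG : Nice G) (n : ℕ) :
    ModularFormClass.qCoeff (F * G) n =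
      ∑ p ∈ Finset.HasAntidiagonal.antidiagonal n,
        ModularFormClass.qCoeff F p.1 * ModularFormClass.qCoeff G p.2 := by
  change (qExpansion 1 (F * G)).coeff n = _
  rw [qExpansion_mul hF.analyticAt hG.analyticAt, PowerSeries.coeff_mul]
  rfl

end Fermat.Agent.S48.B7.Product
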