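import Mathlib
import Fermat.Prelude.Def_FLTPrelim_Modularity
import Fermat.Agent.S48.Eis1.MultiplierMain
import Fermat.Agent.S48.B7.Deplete
import Fermat.Agent.S48.B7.Product

/-!
# S48, part B, brick B7b: weight one to weight two modulo `ker φ`

For `f` as in S48 (weight one on `Γ₁(N)`, formal Hecke relations with `ε` away from `N`), with
algebraic integer coefficients `a_n`, `(n, N) = 1`, for a prime `ℓ ≥ 3` and
`φ : integralClosure ℤ ℂ →+* k`, `char k = ℓ`, we produce `g = f' · G ∈ S₂(Γ₁(N² ℓ))`, where `f'` is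
the `N`-depletion of `f` and `G ≡ 1 (mod ker φ)` is the weight one multiplier on `Γ₁(ℓ)`
(brick B7a):  `g` has nebentypus `ε ψ` on `Γ₀(N² ℓ)`, algebraic integer coefficients, and
`g ≡ f' (mod ker φ)`.
-/

set_option autoImplicit false

noncomputable section

namespace Fermat.Agent.S48.B7.Main

open Matrix.SpecialLinearGroup UpperHalfPlane CongruenceSubgroup ModularForm ModularFormClass
open Fermat.Agent.S48.A.Neb Fermat.Agent.S48.B7.Deplete Fermat.Agent.S48.B7.Product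
open scoped MatrixGroups ModularForm Manifold

local notation "Zb" => integralClosure ℤ ℂ

/-- **B7b, core.** -/
theorem exists_weightTwo_congruent
    (N : ℕ) [NeZero N] (ε : DirichletCharacter ℂ N) (f : CuspForm (Gamma1 N) 1)
    (hT : ∀ p : ℕ, p.Prime → ¬ p ∣ N → ∀ n : ℕ,
        ModularFormClass.qCoeff f (p * n) +
            ε (p : ZMod N) * (if p ∣ n then ModularFormClass.qCoeff f (n / p) else 0) =
          ModularFormClass.qCoeff f p * ModularFormClass.qCoeff f n)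
    (hint : ∀ n : ℕ, n.Coprime N → IsIntegral ℤ (ModularFormClass.qCoeff f n))
    (ℓ : ℕ) [Fact ℓ.Prime] (hℓ : 3 ≤ ℓ) {k : Type*} [Field k] [CharP k ℓ] (φ : Zb →+* k) :
    ∃ (ψ : DirichletCharacter ℂ ℓ) (g : CuspForm (Gamma1 (N ^ 2 * ℓ)) 2),
      (∀ γ : SL(2, ℤ), γ ∈ Gamma0 (N ^ 2 * ℓ) →
        (⇑g) ∣[(2 : ℤ)] γ =
          (ε ((γ 1 1 : ℤ) : ZMod N) * ψ ((γ 1 1 : ℤ) : ZMod ℓ)) • ⇑g) ∧
      (∀ n : ℕ, ¬ ℓ ∣ n →
        ∃ b : Zb, (b : ℂ) = ψ (n : ZMod ℓ) ∧ φ b * (n : k) = 1) ∧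
      (∀ n : ℕ, ∃ c a : Zb, (c : ℂ) = ModularFormClass.qCoeff g n ∧
        (a : ℂ) = (if n.Coprime N then ModularFormClass.qCoeff f n else 0) ∧ φ c = φ a) := by
  classical
  have hℓ0 : NeZero ℓ := ⟨(Fact.out : ℓ.Prime).ne_zero⟩
  have hM0 : NeZero (N ^ 2 * ℓ) := ⟨mul_ne_zero (pow_ne_zero 2 (NeZero.ne N)) hℓ0.ne⟩
  -- the nebentypus of `f` and the depleted form
  have he : ∀ γ : SL(2, ℤ), γ ∈ Gamma0 N →
      ⇑f ∣[(1 : ℤ)] mapGL ℝ γ = ε ((γ 1 1 : ℤ) : ZMod N) • ⇑f :=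
    fun γ hγ => slash_eq_eps_smul ε f hT γ hγ
  set f' : CuspForm (Gamma1 (N ^ 2)) 1 := depleted f (fun x => ε x) (map_one ε) he with hf'
  -- the multiplier
  obtain ⟨ψ, G, hGslash, hψ, hGint⟩ :=
    Fermat.Agent.S48.Eis1.MultiplierMain.exists_weightOne_multiplier ℓ hℓ φ
  -- the product
  have hF1 : Inv1 (N ^ 2 * ℓ) 1 ⇑f' := inv1_mono (dvd_mul_right _ _) (inv1_cuspForm f')
  have hG1 : Inv1 (N ^ 2 * ℓ) 1 ⇑G := inv1_mono (dvd_mul_left _ _) (inv1_modularForm G)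
  set g : CuspForm (Gamma1 (N ^ 2 * ℓ)) 2 :=
    mulForm (k1 := 1) (k2 := 1) (k := 2) (by norm_num) (cuspQ_cuspForm f') hF1
      (modQ_modularForm G) hG1 with hg
  have hgcoe : ⇑g = ⇑f' * ⇑G := rfl
  -- integral lifts
  have hA : ∀ i : ℕ, ∃ a : Zb, (a : ℂ) = if i.Coprime N then qCoeff f i else 0 := by
    intro i
    by_cases hi : i.Coprime N
    · exact ⟨⟨qCoeff f i, hint i hi⟩, by rw [if_pos hi]⟩
    · exact ⟨0, by rw [if_neg hi]; rfl⟩
  choose A hA using hA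
  choose B hB hBφ using hGint
  refine ⟨ψ, g, ?_, hψ, fun n => ⟨∑ p ∈ Finset.HasAntidiagonal.antidiagonal n, A p.1 * B p.2, A n,
    ?_, hA n, ?_⟩⟩
  · -- nebentypus
    intro γ hγ
    have hγ1 : γ ∈ Gamma0 (N ^ 2) := Gamma0_le_of_dvd (dvd_mul_right _ _) hγ
    have hγ2 : γ ∈ Gamma0 ℓ := Gamma0_le_of_dvd (dvd_mul_left _ _) hγ
    have h1 : ⇑f' ∣[(1 : ℤ)] γ = ε ((γ 1 1 : ℤ) : ZMod N) • ⇑f' :=
      depleted_slash f (fun x => ε x) (map_one ε) he γ hγ1
    have h2 := hGslash γ hγ2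
    have h3 := ModularForm.mul_slash_SL2 1 1 γ ⇑f' ⇑G
    rw [h1, h2] at h3
    rw [hgcoe, show (2 : ℤ) = 1 + 1 by norm_num, h3, smul_mul_smul_comm]
  · -- the coefficients of `g`
    rw [hgcoe, qCoeff_mul (nice_cuspForm f') (nice_modularForm G)]
    push_cast
    refine Finset.sum_congr rfl fun p _ => ?_
    rw [hA, hB, hf', qCoeff_depleted]
  · -- the congruence
    rw [map_sum]
    rw [Finset.sum_eq_single (n, 0)]
    · rw [map_mul, hBφ, if_pos rfl, mul_one]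
    · intro p hp hne
      rw [map_mul, hBφ, if_neg, mul_zero]
      intro h0
      apply hne
      rw [Finset.HasAntidiagonal.mem_antidiagonal] at hp
      ext
      · simp only; omega
      · exact h0
    · intro h
      exact absurd (Finset.HasAntidiagonal.mem_antidiagonal.mpr (by simp)) h

end Fermat.Agent.S48.B7.Main
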