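import Mathlib
import Fermat.Prelude.Def_FLTPrelim_Modularity
import Fermat.Agent.S48.G1.HeckeOp
import Fermat.Agent.S48.B7.Main

/-!
# S48, part B, brick B7b: the weight two form is an eigenvector modulo `ker φ`

Consequences of the three properties of `(ψ, g)` delivered by
`Fermat.Agent.S48.B7.Main.exists_weightTwo_congruent`, in the spelling of the bundled operators
`diamond u`, `heckeT p hp` of `Fermat.Agent.S48.G1`:

* `diamond_eq_smul`: `⟨u⟩ g = ε(u) ψ(u) • g` for every unit `u` modulo `N² ℓ`;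
* `heckeT_congr`: `T_p g ≡ a_p(f) g (mod ker φ)` on `q`-expansions, for every prime `p ∤ N² ℓ`;
* `qCoeff_one_congr`: the coefficient of `q` in `g` is `≡ 1`, so `g ≢ 0 (mod ker φ)`.
-/

set_option autoImplicit false

noncomputable section

namespace Fermat.Agent.S48.B7.Eigen

open Matrix.SpecialLinearGroup UpperHalfPlane CongruenceSubgroup ModularForm ModularFormClass
open Fermat.Agent.S48.A.Neb Fermat.Agent.S48.G1
open scoped MatrixGroups ModularForm Manifold

local notation "Zb" => integralClosure ℤ ℂ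

variable {N : ℕ} [NeZero N] {ℓ : ℕ} [NeZero ℓ]

/-- the nebentypus in the spelling of the bundled diamond operators -/
theorem diamond_eq_smul (ε : DirichletCharacter ℂ N) (ψ : DirichletCharacter ℂ ℓ)
    (g : CuspForm (Gamma1 (N ^ 2 * ℓ)) 2)
    (hg : ∀ γ : SL(2, ℤ), γ ∈ Gamma0 (N ^ 2 * ℓ) →
        (⇑g) ∣[(2 : ℤ)] γ =
          (ε ((γ 1 1 : ℤ) : ZMod N) * ψ ((γ 1 1 : ℤ) : ZMod ℓ)) • ⇑g)
    (u : (ZMod (N ^ 2 * ℓ))ˣ) :
    diamond u g =
      (ε (ZMod.castHom (Dvd.intro_left (N * ℓ) (by ring) : N ∣ N ^ 2 * ℓ) (ZMod N) (u : ZMod _)) *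
        ψ (ZMod.castHom (dvd_mul_left ℓ (N ^ 2)) (ZMod ℓ) (u : ZMod _))) • g := by
  apply DFunLike.coe_injective
  have hspec := repOf_spec u
  have h := hg (repOf u) hspec.mem_Gamma0
  rw [coe_diamond]
  have h1 : ∀ (M : ℕ) (hM : M ∣ N ^ 2 * ℓ),
      (((repOf u) 1 1 : ℤ) : ZMod M) = ZMod.castHom hM (ZMod M) (u : ZMod _) := by
    intro M hM
    rw [← hspec.2, map_intCast]
  rw [h1 N, h1 ℓ] at h
  exact h

omit [NeZero ℓ] in
/-- the values of a Dirichlet character are algebraic integers -/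
theorem isIntegral_dirichlet (ε : DirichletCharacter ℂ N) (x : ZMod N) : IsIntegral ℤ (ε x) := by
  by_cases hx : IsUnit x
  · obtain ⟨u, rfl⟩ := hx
    have hpos : 0 < Fintype.card (ZMod N)ˣ := Fintype.card_pos
    refine IsIntegral.of_pow hpos ?_
    rw [← map_pow, ← Units.val_pow_eq_pow_val, pow_card_eq_one, Units.val_one, map_one]
    exact isIntegral_one
  · rw [MulChar.map_nonunit ε hx]
    exact isIntegral_zero

omit [NeZero N] [NeZero ℓ] in
/-- the formal Hecke relation for the depleted coefficients -/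
theorem depleted_heckeRel (ε : DirichletCharacter ℂ N) (f : CuspForm (Gamma1 N) 1)
    (hT : ∀ p : ℕ, p.Prime → ¬ p ∣ N → ∀ n : ℕ,
        ModularFormClass.qCoeff f (p * n) +
            ε (p : ZMod N) * (if p ∣ n then ModularFormClass.qCoeff f (n / p) else 0) =
          ModularFormClass.qCoeff f p * ModularFormClass.qCoeff f n)
    {p : ℕ} (hp : p.Prime) (hpN : ¬ p ∣ N) (n : ℕ) :
    (if (n * p).Coprime N then qCoeff f (n * p) else 0) +
        (if p ∣ n then ε (p : ZMod N) * (if (n / p).Coprime N then qCoeff f (n / p) else 0)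
          else 0) =
      qCoeff f p * (if n.Coprime N then qCoeff f n else 0) := by
  have hpc : p.Coprime N := (Nat.Prime.coprime_iff_not_dvd hp).mpr hpN
  have h1 : (n * p).Coprime N ↔ n.Coprime N := by
    rw [Nat.coprime_mul_iff_left]
    exact ⟨fun h => h.1, fun h => ⟨h, hpc⟩⟩
  by_cases hn : n.Coprime N
  · rw [if_pos (h1.mpr hn), if_pos hn, ← hT p hp hpN n, mul_comm n p]
    congr 1
    by_cases hpn : p ∣ n
    · have h2 : (n / p).Coprime N := by
        obtain ⟨m, rfl⟩ := hpn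
        rw [Nat.mul_div_cancel_left m hp.pos]
        exact (Nat.coprime_mul_iff_left.mp hn).2
      rw [if_pos hpn, if_pos hpn, if_pos h2]
    · rw [if_neg hpn, if_neg hpn, mul_zero]
  · rw [if_neg (fun h => hn (h1.mp h)), if_neg hn, mul_zero, zero_add]
    by_cases hpn : p ∣ n
    · have h2 : ¬ (n / p).Coprime N := by
        intro h
        apply hn
        obtain ⟨m, rfl⟩ := hpn
        rw [Nat.mul_div_cancel_left m hp.pos] at h
        exact Nat.coprime_mul_iff_left.mpr ⟨hpc, h⟩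
      rw [if_pos hpn, if_neg h2, mul_zero]
    · rw [if_neg hpn]

/-- **`T_p g ≡ a_p(f) g` modulo `ker φ`**, on `q`-expansions, for `p ∤ N² ℓ`. -/
theorem heckeT_congr (ε : DirichletCharacter ℂ N) (f : CuspForm (Gamma1 N) 1)
    (hT : ∀ p : ℕ, p.Prime → ¬ p ∣ N → ∀ n : ℕ,
        ModularFormClass.qCoeff f (p * n) +
            ε (p : ZMod N) * (if p ∣ n then ModularFormClass.qCoeff f (n / p) else 0) =
          ModularFormClass.qCoeff f p * ModularFormClass.qCoeff f n)
    (ψ : DirichletCharacter ℂ ℓ) (g : CuspForm (Gamma1 (N ^ 2 * ℓ)) 2)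
    {k : Type*} [Field k] (φ : Zb →+* k)
    (hg : ∀ γ : SL(2, ℤ), γ ∈ Gamma0 (N ^ 2 * ℓ) →
        (⇑g) ∣[(2 : ℤ)] γ =
          (ε ((γ 1 1 : ℤ) : ZMod N) * ψ ((γ 1 1 : ℤ) : ZMod ℓ)) • ⇑g)
    (hcoef : ∀ n : ℕ, ∃ c a : Zb, (c : ℂ) = ModularFormClass.qCoeff g n ∧
        (a : ℂ) = (if n.Coprime N then ModularFormClass.qCoeff f n else 0) ∧ φ c = φ a)
    (p : ℕ) [Fact p.Prime] (hp : ¬ p ∣ N ^ 2 * ℓ)
    (hψp : ∃ b : Zb, (b : ℂ) = ψ (p : ZMod ℓ) ∧ φ b * (p : k) = 1) (n : ℕ) :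
    ∃ c ap cn : Zb, (c : ℂ) = ModularFormClass.qCoeff (heckeT p hp g) n ∧
      (ap : ℂ) = ModularFormClass.qCoeff f p ∧ (cn : ℂ) = ModularFormClass.qCoeff g n ∧
      φ c = φ ap * φ cn := by
  classical
  have hpp : p.Prime := Fact.out
  have hNdvd : N ∣ N ^ 2 * ℓ := Dvd.intro_left (N * ℓ) (by ring)
  have hpN : ¬ p ∣ N := fun h => hp (h.trans hNdvd)
  have hpc : p.Coprime N := (Nat.Prime.coprime_iff_not_dvd hpp).mpr hpN
  choose C A hC hA hCA using hcoef
  obtain ⟨b, hb, hbφ⟩ := hψp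
  set E : Zb := ⟨ε (p : ZMod N), isIntegral_dirichlet ε _⟩ with hE
  -- the diamond operator at `p`
  have hd := diamond_eq_smul ε ψ g hg (unitOfPrime p hp)
  rw [coe_unitOfPrime, map_natCast (ZMod.castHom hNdvd (ZMod N)) p,
    map_natCast (ZMod.castHom (dvd_mul_left ℓ (N ^ 2)) (ZMod ℓ)) p] at hd
  have hq := qCoeff_heckeT_of_diamond p hp g hd n
  refine ⟨C (n * p) + (if p ∣ n then ((p : ℕ) : Zb) * (E * b) * C (n / p) else 0), A p, C n,
    ?_, ?_, hC n, ?_⟩
  · rw [hq]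
    push_cast
    rw [hC]
    congr 1
    by_cases hpn : p ∣ n
    · rw [if_pos hpn, if_pos hpn]
      push_cast
      rw [hC, hb, hE]
      norm_num
    · rw [if_neg hpn, if_neg hpn]
      rfl
  · rw [hA, if_pos hpc]
  · -- the relation in `Zb`
    have hrel : A (n * p) + (if p ∣ n then E * A (n / p) else 0) = A p * A n := by
      apply Subtype.ext
      have h := depleted_heckeRel ε f hT hpp hpN n
      push_cast
      rw [hA, hA, hA, if_pos hpc]
      rw [← h]
      congr 1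
      by_cases hpn : p ∣ n
      · rw [if_pos hpn, if_pos hpn]
        push_cast
        rw [hA, hE]
      · rw [if_neg hpn, if_neg hpn]
        rfl
    rw [map_add, hCA (n * p), hCA n, ← map_mul, ← hrel, map_add]
    congr 1
    by_cases hpn : p ∣ n
    · rw [if_pos hpn, if_pos hpn, map_mul, map_mul, map_mul, map_natCast, hCA, map_mul]
      have : (p : k) * (φ E * φ b) = φ E := by
        rw [mul_comm, mul_assoc, hbφ, mul_one]
      rw [this]
    · rw [if_neg hpn, if_neg hpn]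

omit [NeZero N] [NeZero ℓ] in
/-- the coefficient of `q` in `g` is `≡ 1`: the class of `g` modulo `ker φ` is not zero -/
theorem qCoeff_one_congr (f : CuspForm (Gamma1 N) 1) (hf₁ : ModularFormClass.qCoeff f 1 = 1)
    (g : CuspForm (Gamma1 (N ^ 2 * ℓ)) 2) {k : Type*} [Field k] (φ : Zb →+* k)
    (hcoef : ∀ n : ℕ, ∃ c a : Zb, (c : ℂ) = ModularFormClass.qCoeff g n ∧
        (a : ℂ) = (if n.Coprime N then ModularFormClass.qCoeff f n else 0) ∧ φ c = φ a) :
    ∃ c : Zb, (c : ℂ) = ModularFormClass.qCoeff g 1 ∧ φ c = 1 := by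
  obtain ⟨c, a, hc, ha, hca⟩ := hcoef 1
  refine ⟨c, hc, ?_⟩
  have h1 : a = 1 := by
    apply Subtype.ext
    rw [ha, if_pos (Nat.coprime_one_left N), hf₁]
    rfl
  rw [hca, h1, map_one]

end Fermat.Agent.S48.B7.Eigen
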