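import Mathlib
import Fermat.Prelude.Def_FLTPrelim_Modularity
import Fermat.Agent.S48.B.Defs.Spec
import Fermat.Agent.S48.B7.Eigen

/-!
# S48, part B, brick B7b: the weight one form of S48 gives `Spec.ModEigenData`

`exists_modEigenData`: for `f` as in S48 with algebraic integer coefficients `a_n`, `(n, N) = 1`, a
prime `ℓ ≥ 3` and `φ : integralClosure ℤ ℂ →+* k`, `char k = ℓ`: the weight two form
`h = f' · G` on `Γ₁(N² ℓ)` of `Fermat.Agent.S48.B7.Main`, its nebentypus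
`χ = ε ψ : (ZMod (N² ℓ))ˣ →* Zbarˣ` and its `q`-expansion `a : ℕ → Zbar` form a
`Spec.ModEigenData (N² ℓ) φ χ c h a` with `c p = a_p(f)` for `p ∤ N`, and
`φ (p χ(p)) = φ (ε p)` for `p ∤ N ℓ`.
-/

set_option autoImplicit false

noncomputable section

namespace Fermat.Agent.S48.B7.ModEigen

open Matrix.SpecialLinearGroup UpperHalfPlane CongruenceSubgroup ModularForm ModularFormClass
open Fermat.Agent.S48.A.Neb Fermat.Agent.S48.B7.Eigen Fermat.Agent.S48.B.Defs.Spec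
open scoped MatrixGroups ModularForm Manifold

local notation "Zbar" => integralClosure ℤ ℂ

/-! ### the product character with values in `Zbarˣ` -/

section character

variable {N ℓ M : ℕ} [NeZero N] [NeZero ℓ]

/-- the product of two Dirichlet characters of levels dividing `M`, as a monoid homomorphism to the
multiplicative monoid of `Zbar` -/
def prodCharHom (hN : N ∣ M) (hℓ : ℓ ∣ M) (ε : DirichletCharacter ℂ N)
    (ψ : DirichletCharacter ℂ ℓ) : (ZMod M)ˣ →* Zbar where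
  toFun u := ⟨ε (ZMod.castHom hN (ZMod N) (u : ZMod M)) * ψ (ZMod.castHom hℓ (ZMod ℓ) (u : ZMod M)),
    (isIntegral_dirichlet ε _).mul (isIntegral_dirichlet ψ _)⟩
  map_one' := by
    apply Subtype.ext
    change ε (ZMod.castHom hN (ZMod N) ((1 : (ZMod M)ˣ) : ZMod M)) *
      ψ (ZMod.castHom hℓ (ZMod ℓ) ((1 : (ZMod M)ˣ) : ZMod M)) = 1
    rw [Units.val_one, map_one, map_one, map_one, map_one, one_mul]
  map_mul' u v := by
    apply Subtype.ext
    change ε (ZMod.castHom hN (ZMod N) ((u * v : (ZMod M)ˣ) : ZMod M)) *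
      ψ (ZMod.castHom hℓ (ZMod ℓ) ((u * v : (ZMod M)ˣ) : ZMod M)) =
      (ε (ZMod.castHom hN (ZMod N) (u : ZMod M)) * ψ (ZMod.castHom hℓ (ZMod ℓ) (u : ZMod M))) *
      (ε (ZMod.castHom hN (ZMod N) (v : ZMod M)) * ψ (ZMod.castHom hℓ (ZMod ℓ) (v : ZMod M)))
    rw [Units.val_mul, map_mul, map_mul, map_mul, map_mul]
    ring

/-- the product character with values in `Zbarˣ` -/
def prodChar (hN : N ∣ M) (hℓ : ℓ ∣ M) (ε : DirichletCharacter ℂ N)
    (ψ : DirichletCharacter ℂ ℓ) : (ZMod M)ˣ →* Zbarˣ :=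
  (prodCharHom hN hℓ ε ψ).toHomUnits

theorem coe_prodChar (hN : N ∣ M) (hℓ : ℓ ∣ M) (ε : DirichletCharacter ℂ N)
    (ψ : DirichletCharacter ℂ ℓ) (u : (ZMod M)ˣ) :
    ((((prodChar hN hℓ ε ψ u : Zbarˣ) : Zbar)) : ℂ) =
      ε (ZMod.castHom hN (ZMod N) (u : ZMod M)) * ψ (ZMod.castHom hℓ (ZMod ℓ) (u : ZMod M)) := by
  unfold prodChar
  rw [MonoidHom.coe_toHomUnits]
  rfl

end character

/-! ### the mod `λ` eigenform -/

/-- **B7b, the literal consumed by B5.** -/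
theorem exists_modEigenData
    (N : ℕ) [NeZero N] (ε : DirichletCharacter ℂ N) (f : CuspForm (Gamma1 N) 1)
    (hf₁ : ModularFormClass.qCoeff f 1 = 1)
    (hT : ∀ p : ℕ, p.Prime → ¬ p ∣ N → ∀ n : ℕ,
        ModularFormClass.qCoeff f (p * n) +
            ε (p : ZMod N) * (if p ∣ n then ModularFormClass.qCoeff f (n / p) else 0) =
          ModularFormClass.qCoeff f p * ModularFormClass.qCoeff f n)
    (hint : ∀ n : ℕ, 0 < n → n.Coprime N → IsIntegral ℤ (ModularFormClass.qCoeff f n))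
    (ℓ : ℕ) [Fact ℓ.Prime] (hℓ : 3 ≤ ℓ) {k : Type} [Field k] [CharP k ℓ] (φ : Zbar →+* k) :
    ∃ (χ : (ZMod (N ^ 2 * ℓ))ˣ →* Zbarˣ) (c : ℕ → Zbar) (h : CuspForm (Gamma1 (N ^ 2 * ℓ)) 2)
      (a : ℕ → Zbar),
      ModEigenData (N ^ 2 * ℓ) φ χ c h a ∧
      (∀ p : ℕ, p.Coprime N → ((c p : Zbar) : ℂ) = ModularFormClass.qCoeff f p) ∧
      (∀ (p : ℕ) (_ : p.Prime) (hpM : p.Coprime (N ^ 2 * ℓ)),
        ∃ e : Zbar, (e : ℂ) = ε (p : ZMod N) ∧
          φ ((p : Zbar) * ((χ (unitOf (N ^ 2 * ℓ) p hpM) : Zbarˣ) : Zbar)) = φ e) := by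
  classical
  have hNdvd : N ∣ N ^ 2 * ℓ := Dvd.intro_left (N * ℓ) (by ring)
  have hℓdvd : ℓ ∣ N ^ 2 * ℓ := dvd_mul_left ℓ (N ^ 2)
  have hint' : ∀ n : ℕ, n.Coprime N → IsIntegral ℤ (ModularFormClass.qCoeff f n) := by
    intro n hn
    rcases Nat.eq_zero_or_pos n with rfl | hpos
    · have h0 : ModularFormClass.qCoeff f 0 = 0 :=
        CuspFormClass.qExpansion_coeff_zero f one_pos (one_mem_strictPeriods_Gamma1 N)
      rw [h0]
      exact isIntegral_zero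
    · exact hint n hpos hn
  obtain ⟨ψ, g, hg, hψ, hcoef⟩ :=
    Fermat.Agent.S48.B7.Main.exists_weightTwo_congruent N ε f hT hint' ℓ hℓ φ
  choose C A hC hA hCA using hcoef
  -- the values of the product character at a prime
  have hχ : ∀ (p : ℕ) (hpM : p.Coprime (N ^ 2 * ℓ)),
      ((((prodChar hNdvd hℓdvd ε ψ (unitOf (N ^ 2 * ℓ) p hpM) : Zbarˣ) : Zbar)) : ℂ) =
        ε (p : ZMod N) * ψ (p : ZMod ℓ) := by
    intro p hpM
    rw [coe_prodChar]
    unfold unitOf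
    rw [ZMod.coe_unitOfCoprime, map_natCast (ZMod.castHom hNdvd (ZMod N)) p,
      map_natCast (ZMod.castHom hℓdvd (ZMod ℓ)) p]
  -- `φ (p χ(p)) = φ (ε p)`
  have hpχ : ∀ (p : ℕ) (_ : p.Prime) (hpM : p.Coprime (N ^ 2 * ℓ)),
      φ ((p : Zbar) * ((prodChar hNdvd hℓdvd ε ψ (unitOf (N ^ 2 * ℓ) p hpM) : Zbarˣ) : Zbar)) =
        φ ⟨ε (p : ZMod N), isIntegral_dirichlet ε _⟩ := by
    intro p hp hpM
    have hpℓ : ¬ ℓ ∣ p := by
      intro hdvd
      have h1 : ℓ ∣ Nat.gcd p (N ^ 2 * ℓ) := Nat.dvd_gcd hdvd hℓdvd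
      rw [hpM] at h1
      exact (Fact.out : ℓ.Prime).one_lt.ne' (Nat.dvd_one.mp h1)
    obtain ⟨b, hb, hbφ⟩ := hψ p hpℓ
    have h1 : ((prodChar hNdvd hℓdvd ε ψ (unitOf (N ^ 2 * ℓ) p hpM) : Zbarˣ) : Zbar) =
        ⟨ε (p : ZMod N), isIntegral_dirichlet ε _⟩ * b := by
      apply Subtype.ext
      rw [hχ p hpM]
      push_cast
      rw [hb]
    rw [h1, map_mul, map_mul, map_natCast]
    rw [mul_comm, mul_assoc, hbφ, mul_one]
  refine ⟨prodChar hNdvd hℓdvd ε ψ, A, g, C, ⟨hC, ⟨1, ?_⟩, ?_, ?_⟩, ?_, ?_⟩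
  · -- nonzero modulo `ker φ`
    have h1 : A 1 = 1 := by
      apply Subtype.ext
      rw [hA, if_pos (Nat.coprime_one_left N), hf₁]
      rfl
    rw [hCA, h1, map_one]
    exact one_ne_zero
  · -- nebentypus
    intro γ hγ d hd
    rw [hg γ hγ, coe_prodChar, ← hd, map_intCast (ZMod.castHom hNdvd (ZMod N)),
      map_intCast (ZMod.castHom hℓdvd (ZMod ℓ))]
  · -- eigenvector modulo `ker φ`
    intro p hp hpM n
    have hpN : ¬ p ∣ N := by
      intro hdvd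
      have h1 : p ∣ Nat.gcd p (N ^ 2 * ℓ) := Nat.dvd_gcd dvd_rfl (hdvd.trans hNdvd)
      rw [hpM] at h1
      exact hp.one_lt.ne' (Nat.dvd_one.mp h1)
    have hpc : p.Coprime N := (Nat.Prime.coprime_iff_not_dvd hp).mpr hpN
    set E : Zbar := ⟨ε (p : ZMod N), isIntegral_dirichlet ε _⟩ with hE
    have hrel : A (n * p) + (if p ∣ n then E * A (n / p) else 0) = A p * A n := by
      apply Subtype.ext
      have h := depleted_heckeRel ε f hT hp hpN n
      push_cast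
      rw [hA, hA, hA, if_pos hpc]
      rw [← h]
      congr 1
      by_cases hpn : p ∣ n
      · rw [if_pos hpn, if_pos hpn]
        push_cast
        rw [hA, hE]
      · rw [if_neg hpn, if_neg hpn]
        rfl
    rw [hCA (n * p), hCA n, ← map_mul, ← hrel, map_add]
    congr 1
    by_cases hpn : p ∣ n
    · rw [if_pos hpn, if_pos hpn, map_mul, hpχ p hp hpM, hCA, map_mul]
    · rw [if_neg hpn, if_neg hpn, map_zero]
  · intro p hpc
    rw [hA, if_pos hpc]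
  · intro p hp hpM
    exact ⟨⟨ε (p : ZMod N), isIntegral_dirichlet ε _⟩, rfl, hpχ p hp hpM⟩

end Fermat.Agent.S48.B7.ModEigen
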