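import Mathlib
import Fermat.Agent.S48.Seam
import Fermat.Agent.S48.B7.ModEigen

/-!
# S48, part B: from the mod `λ` deliverable of B5 to the seam `(B*)`

`residualReps_of_modEigen`: if every mod `λ` eigenform of weight two on `Γ₁(M)`, `M ≥ 5`, has a
residual representation (`Spec.ResidualRepsModEigen M ℓ`, the deliverable of block B5, for every
prime `ℓ ≥ 5`) and the coefficients `a_n`, `(n, N) = 1`, of the forms of S48 are algebraic integers
(brick A3), then `Seam.ResidualReps` holds.  The bridge is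
`Fermat.Agent.S48.B7.ModEigen.exists_modEigenData` at the level `M = N² ℓ`.
-/

set_option autoImplicit false

noncomputable section

namespace Fermat.Agent.S48.B7.Top

open CongruenceSubgroup Polynomial
open Fermat.Agent.S48.Seam Fermat.Agent.S48.B.Defs.Spec Fermat.Agent.S48.B7.ModEigen
open scoped MatrixGroups

local notation "Zbar" => integralClosure ℤ ℂ

/-- the integrality input (brick A3): the coefficients prime to the level are algebraic integers -/
def CoeffIntegral : Prop :=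
  ∀ (N : ℕ) [NeZero N] (ε : DirichletCharacter ℂ N) (f : CuspForm (Gamma1 N) 1),
    ModularFormClass.qCoeff f 1 = 1 → HeckeRel N ε f →
    ∀ n : ℕ, 0 < n → n.Coprime N → IsIntegral ℤ (ModularFormClass.qCoeff f n)

/-- `CoeffIntegral` from the number field statement of brick A3 -/
theorem coeffIntegral_of_exists_field
    (h : ∀ (N : ℕ) [NeZero N] (ε : DirichletCharacter ℂ N) (f : CuspForm (Gamma1 N) 1),
      ModularFormClass.qCoeff f 1 = 1 → HeckeRel N ε f →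
      ∃ K : IntermediateField ℚ ℂ, FiniteDimensional ℚ K ∧
        (∀ n : ℕ, 0 < n → n.Coprime N →
          ∃ x : K, (x : ℂ) = ModularFormClass.qCoeff f n ∧ IsIntegral ℤ x) ∧
        ∀ p : ℕ, ∃ x : K, (x : ℂ) = ε (p : ZMod N) ∧ IsIntegral ℤ x) : CoeffIntegral := by
  intro N _ ε f hf₁ hT n hn hcop
  obtain ⟨K, -, hK, -⟩ := h N ε f hf₁ hT
  obtain ⟨x, hx, hxint⟩ := hK n hn hcop
  rw [← hx]
  exact hxint.map (K.val.toIntAlgHom)

/-- **the top of part B**: the deliverable of B5 (at the levels `N² ℓ`) and the integrality of the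
coefficients give the seam `(B*)`. -/
theorem residualReps_of_modEigen
    (hB5 : ∀ (M : ℕ) [NeZero M] (ℓ : ℕ), ℓ.Prime → ℓ ≠ 2 → 5 ≤ M → ResidualRepsModEigen M ℓ)
    (hint : CoeffIntegral) : ResidualReps := by
  intro N _ ε f hf₁ hT
  refine ⟨4, fun ℓ hℓ hℓ4 k _ _ φ => ?_⟩
  have : Fact ℓ.Prime := ⟨hℓ⟩
  have hN0 : 0 < N := Nat.pos_of_ne_zero (NeZero.ne N)
  have hM5 : 5 ≤ N ^ 2 * ℓ := by
    have h1 : 1 ≤ N ^ 2 := Nat.one_le_pow _ _ hN0
    calc 5 ≤ ℓ := hℓ4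
      _ = 1 * ℓ := (one_mul ℓ).symm
      _ ≤ N ^ 2 * ℓ := Nat.mul_le_mul_right ℓ h1
  obtain ⟨χ, c, h, a, hdata, hc, hχ⟩ :=
    exists_modEigenData N ε f hf₁ hT (hint N ε f hf₁ hT) ℓ (by omega) φ
  obtain ⟨ρ, hunr, hchar⟩ :=
    hB5 (N ^ 2 * ℓ) ℓ hℓ (by omega) hM5 k φ χ c h a hdata
  -- `p ∤ N ℓ` implies `p ∤ N² ℓ · ℓ` and `p` prime to `N² ℓ`
  have hdvd : ∀ p : ℕ, p.Prime → ¬ p ∣ N * ℓ → ¬ p ∣ N ^ 2 * ℓ * ℓ := by
    intro p hp hpN hdiv
    apply hpN
    rcases (Nat.Prime.dvd_mul hp).mp hdiv with h1 | h1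
    · rcases (Nat.Prime.dvd_mul hp).mp h1 with h2 | h2
      · exact (hp.dvd_of_dvd_pow h2).mul_right ℓ
      · exact h2.mul_left N
    · exact h1.mul_left N
  refine ⟨ρ, fun p hp hpN => hunr p hp (hdvd p hp hpN), ?_⟩
  intro p hp hpN A hA σ hσ
  have hpM : p.Coprime (N ^ 2 * ℓ) := by
    rw [Nat.Prime.coprime_iff_not_dvd hp]
    exact fun hdiv => hdvd p hp hpN (hdiv.mul_right ℓ)
  have hpc : p.Coprime N := by
    rw [Nat.Prime.coprime_iff_not_dvd hp]
    exact fun hdiv => hpN (hdiv.mul_right ℓ)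
  obtain ⟨e, he, heφ⟩ := hχ p hp hpM
  refine ⟨c p, e, hc p hpc, he, ?_⟩
  rw [hchar p hp (hdvd p hp hpN) hpM A hA σ hσ, heφ]

end Fermat.Agent.S48.B7.Top
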